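import Fermat.Agent.S22.Lattice
import Fermat.Prelude.Thm_ModularForm_sturm_bound_Gamma0

set_option autoImplicit false

open UpperHalfPlane hiding I
open Complex Filter Function CongruenceSubgroup Matrix.SpecialLinearGroup
open scoped Manifold MatrixGroups ModularForm Topology Real

namespace Fermat.Agent.S22

noncomputable section

variable {N : ℕ} [NeZero N] {w : ℕ}

theorem slash_mapGL_apply (F : ℍ → ℂ) (k : ℤ) (γ : SL(2, ℤ)) (z : ℍ) :
    (F ∣[k] (mapGL ℝ γ)) z = F ((mapGL ℝ γ : GL (Fin 2) ℝ) • z) * denom (mapGL ℝ γ) z ^ (-k) :=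
  ModularForm.SL_slash_apply (f := F) (k := k) γ z

/-- key formula: `(I_{w+1} f) ∣[-w] γ = I_{w+1}(f ∣ γ) + R_f(γ)(z,1) / w!`. -/
theorem iter_slash_formula (f : CuspForm (Gamma0 N) ((w : ℤ) + 2)) (γ : SL(2, ℤ)) (z : ℍ) :
    (w.factorial : ℂ) * (iter (w + 1) ⇑f ∣[-(w : ℤ)] (mapGL ℝ γ)) z =
      RR w ⇑f (mapGL ℝ γ) z 1 +
        (w.factorial : ℂ) * iter (w + 1) (⇑f ∣[(w : ℤ) + 2] (mapGL ℝ γ)) z := by
  have h := RR_spec (w := w) (det_mapGL_pos γ) (isCuspLike_coe f) (isCuspLike_slash f γ) (z : ℂ) 1 z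
  rw [EE_diag] at h
  have hd : denom (mapGL ℝ γ) z ≠ 0 := denom_ne_zero _ z
  have h1 : (((mapGL ℝ γ : GL (Fin 2) ℝ) 0 0 : ℝ) : ℂ) * z + (((mapGL ℝ γ : GL (Fin 2) ℝ) 0 1 : ℝ) : ℂ) * 1
      = denom (mapGL ℝ γ) z * (((mapGL ℝ γ : GL (Fin 2) ℝ) • z : ℍ) : ℂ) := by
    rw [UpperHalfPlane.coe_smul_of_det_pos (det_mapGL_pos γ), mul_div_cancel₀ _ hd, num, mul_one]
  have h2 : (((mapGL ℝ γ : GL (Fin 2) ℝ) 1 0 : ℝ) : ℂ) * z + (((mapGL ℝ γ : GL (Fin 2) ℝ) 1 1 : ℝ) : ℂ) * 1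
      = denom (mapGL ℝ γ) z * 1 := by
    rw [denom, mul_one, mul_one]
  rw [h1, h2, EE_homog, EE_diag] at h
  rw [← h, slash_mapGL_apply, neg_neg, zpow_natCast]
  ring

/-- vanishing on integer vectors implies vanishing on `(z, 1)`. -/
theorem RR_eq_zero_of_int (φ : ℍ → ℂ) (g : GL (Fin 2) ℝ)
    (h : ∀ x y : ℤ, RR w φ g x y = 0) (X : ℂ) : RR w φ g X 1 = 0 := by
  obtain ⟨p, hp⟩ := RR_poly (w := w) φ g
  have hp0 : p = 0 := by
    apply Polynomial.eq_zero_of_infinite_isRoot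
    have hinf : (Set.range (fun n : ℤ => (n : ℂ))).Infinite :=
      Set.infinite_range_of_injective Int.cast_injective
    refine hinf.mono ?_
    rintro _ ⟨n, rfl⟩
    have := h n 1
    rw [Int.cast_one, hp] at this
    exact this
  rw [hp, hp0, Polynomial.eval_zero]


theorem mapGL_T_zpow_smul (n : ℤ) (z : ℍ) :
    (mapGL ℝ (ModularGroup.T ^ n) : GL (Fin 2) ℝ) • z = (n : ℝ) +ᵥ z := by
  apply UpperHalfPlane.ext
  have := ModularGroup.coe_T_zpow_smul_eq (z := z) (n := n)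
  rw [UpperHalfPlane.coe_vadd]
  push_cast
  rw [add_comm, ← this]
  rfl

theorem slash_T_zpow_apply (F : ℍ → ℂ) (k : ℤ) (n : ℤ) (z : ℍ) :
    (F ∣[k] (mapGL ℝ (ModularGroup.T ^ n))) z = F ((n : ℝ) +ᵥ z) := by
  rw [slash_mapGL_apply, mapGL_T_zpow_smul]
  have : denom (mapGL ℝ (ModularGroup.T ^ n)) z = 1 := by
    have h10 : ((mapGL ℝ (ModularGroup.T ^ n) : GL (Fin 2) ℝ) 1 0 : ℝ) = 0 := by
      rw [mapGL_coe_matrix, Matrix.SpecialLinearGroup.map_apply_coe, ModularGroup.coe_T_zpow]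
      simp
    have h11 : ((mapGL ℝ (ModularGroup.T ^ n) : GL (Fin 2) ℝ) 1 1 : ℝ) = 1 := by
      rw [mapGL_coe_matrix, Matrix.SpecialLinearGroup.map_apply_coe, ModularGroup.coe_T_zpow]
      simp
    rw [denom, h10, h11]
    simp
  rw [this, one_zpow, mul_one]

theorem periodic_mul {φ : ℍ → ℂ} {h : ℕ} (hφ : ∀ z : ℍ, φ ((h : ℝ) +ᵥ z) = φ z) (m : ℕ) (z : ℍ) :
    φ (((m * h : ℕ) : ℝ) +ᵥ z) = φ z := by
  induction m with
  | zero => simp
  | succ m ih =>
    have : (((m + 1) * h : ℕ) : ℝ) +ᵥ z = (h : ℝ) +ᵥ (((m * h : ℕ) : ℝ) +ᵥ z) := by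
      rw [← add_vadd]
      congr 1
      push_cast
      ring
    rw [this, hφ, ih]

theorem poly_const_of_periodic (p : Polynomial ℂ) (P : ℕ) (hP : 0 < P)
    (h : ∀ z : ℍ, p.eval (((P : ℝ) +ᵥ z : ℍ) : ℂ) = p.eval (z : ℂ)) :
    ∀ X : ℂ, p.eval X = p.eval Complex.I := by
  have key : ∀ n : ℕ, p.eval ((((n * P : ℕ) : ℝ) +ᵥ UpperHalfPlane.I : ℍ) : ℂ) = p.eval Complex.I := by
    intro n
    exact periodic_mul (φ := fun z : ℍ => p.eval (z : ℂ)) h n UpperHalfPlane.I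
  have hr : p - Polynomial.C (p.eval Complex.I) = 0 := by
    apply Polynomial.eq_zero_of_infinite_isRoot
    have hinj : Function.Injective
        (fun n : ℕ => ((((n * P : ℕ) : ℝ) +ᵥ UpperHalfPlane.I : ℍ) : ℂ)) := by
      intro a b hab
      simp only [UpperHalfPlane.coe_vadd, add_left_inj] at hab
      have h2 : ((a * P : ℕ) : ℝ) = ((b * P : ℕ) : ℝ) := by exact_mod_cast hab
      have h3 : a * P = b * P := by exact_mod_cast h2
      exact Nat.eq_of_mul_eq_mul_right hP h3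
    refine (Set.infinite_range_of_injective hinj).mono ?_
    rintro _ ⟨n, rfl⟩
    simp only [Set.mem_ofPred_eq, Polynomial.IsRoot.def, Polynomial.eval_sub, Polynomial.eval_C]
    rw [key n, sub_self]
  intro X
  have := congrArg (Polynomial.eval X) hr
  simpa [sub_eq_zero] using this


theorem iter_eq_zero_of_succ {φ : ℍ → ℂ} (hφ : IsCuspLike φ) (m : ℕ)
    (h : iter (m + 1) φ = 0) : iter m φ = 0 := by
  have hd := iter_succ_hasDerivH hφ m
  rw [h] at hd
  funext z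
  have h0 : HasDerivAt ((0 : ℍ → ℂ) ∘ ofComplex) 0 (z : ℂ) := by
    have : ((0 : ℍ → ℂ) ∘ ofComplex) = fun _ => (0 : ℂ) := rfl
    rw [this]
    exact hasDerivAt_const _ _
  exact (hd z).unique h0

theorem eq_zero_of_iter_eq_zero {φ : ℍ → ℂ} (hφ : IsCuspLike φ) (m : ℕ)
    (h : iter m φ = 0) : φ = 0 := by
  induction m with
  | zero => exact h
  | succ m ih => exact ih (iter_eq_zero_of_succ hφ m h)

omit [NeZero N] in
theorem conj_T_pow_mem_Gamma0 (γ : SL(2, ℤ)) :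
    γ * ModularGroup.T ^ (N : ℤ) * γ⁻¹ ∈ Gamma0 N := by
  have h1 : ModularGroup.T ^ (N : ℤ) ∈ CongruenceSubgroup.Gamma N := by
    simpa using ModularGroup_T_pow_mem_Gamma (N : ℤ) (N : ℤ) dvd_rfl
  have h2 : γ * ModularGroup.T ^ (N : ℤ) * γ⁻¹ ∈ CongruenceSubgroup.Gamma N :=
    (Gamma_normal N).conj_mem _ h1 γ
  have h3 : CongruenceSubgroup.Gamma N ≤ Gamma0 N := by
    intro A hA
    rw [Gamma_mem] at hA
    rw [Gamma0_mem]
    exact hA.2.2.1
  exact h3 h2

theorem perLattice_separating (f : CuspForm (Gamma0 N) ((w : ℤ) + 2))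
    (h : ∀ l ∈ perLattice N w, l f = 0) : f = 0 := by
  have hf := isCuspLike_coe f
  set G : ℍ → ℂ := iter (w + 1) ⇑f with hGdef
  have hG : IsCuspLike G := iter_isCuspLike hf (w + 1)
  have hw : (w.factorial : ℂ) ≠ 0 := by exact_mod_cast w.factorial_ne_zero
  -- invariance
  have hinv : ∀ γ ∈ Gamma0 N, G ∣[-(w : ℤ)] (mapGL ℝ γ) = G := by
    intro γ hγ
    funext z
    have h1 := iter_slash_formula f γ z
    have h2 : RR w ⇑f (mapGL ℝ γ) z 1 = 0 := by
      apply RR_eq_zero_of_int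
      intro x y
      exact h _ (perFun_mem hγ x y)
    rw [h2, zero_add, slash_eq_self f hγ] at h1
    exact mul_left_cancel₀ hw h1
  -- boundedness at all cusps
  have hbdd : ∀ γ : SL(2, ℤ), IsBoundedAtImInfty (G ∣[-(w : ℤ)] (mapGL ℝ γ)) := by
    intro γ
    obtain ⟨p, hp⟩ := RR_poly (w := w) ⇑f (mapGL ℝ γ)
    set K : ℍ → ℂ := iter (w + 1) (⇑f ∣[(w : ℤ) + 2] (mapGL ℝ γ)) with hK
    have hKc : IsCuspLike K := iter_isCuspLike (isCuspLike_slash f γ) (w + 1)
    obtain ⟨h', hh', hKper⟩ := hKc.periodic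
    have hHper : ∀ z : ℍ, (G ∣[-(w : ℤ)] (mapGL ℝ γ)) ((N : ℝ) +ᵥ z) =
        (G ∣[-(w : ℤ)] (mapGL ℝ γ)) z := by
      intro z
      have hδ := hinv _ (conj_T_pow_mem_Gamma0 (N := N) γ)
      have e : (G ∣[-(w : ℤ)] (mapGL ℝ γ)) ∣[-(w : ℤ)] (mapGL ℝ (ModularGroup.T ^ (N : ℤ))) =
          G ∣[-(w : ℤ)] (mapGL ℝ γ) := by
        rw [← SlashAction.slash_mul, ← map_mul]
        conv_rhs => rw [← hδ]
        rw [← SlashAction.slash_mul, ← map_mul]
        congr 2
        group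
      have e2 := congrFun e z
      rw [slash_T_zpow_apply] at e2
      exact_mod_cast e2
    have hform : ∀ z : ℍ, p.eval (z : ℂ) =
        (w.factorial : ℂ) * ((G ∣[-(w : ℤ)] (mapGL ℝ γ)) z - K z) := by
      intro z
      have := iter_slash_formula f γ z
      rw [hp] at this
      rw [mul_sub, this]
      ring
    have hconst := poly_const_of_periodic p (h' * N) (Nat.mul_pos hh' (NeZero.pos N)) (by
      intro z
      rw [hform, hform, periodic_mul hHper h' z]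
      have := periodic_mul hKper N z
      rw [Nat.mul_comm] at this
      rw [this])
    have hH : (G ∣[-(w : ℤ)] (mapGL ℝ γ)) =
        (fun _ : ℍ => p.eval Complex.I / (w.factorial : ℂ)) + K := by
      funext z
      have := hform z
      rw [hconst] at this
      simp only [Pi.add_apply]
      rw [this]
      field_simp
      ring
    rw [hH]
    exact (Filter.const_boundedAtFilter _ _).add hKc.zero.boundedAtFilter
  -- assemble a modular form of weight `-w`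
  let Gm : ModularForm (Gamma0 N) (-(w : ℤ)) :=
    { toFun := G
      slash_action_eq' := by
        intro g hg
        obtain ⟨γ, hγ, rfl⟩ := Subgroup.mem_map.mp hg
        exact hinv γ hγ
      holo' := hG.mdiff
      bdd_at_cusps' := by
        intro c hc
        rw [Subgroup.IsArithmetic.isCusp_iff_isCusp_SL2Z] at hc
        rw [OnePoint.isBoundedAt_iff_forall_SL2Z hc]
        intro γ _
        exact hbdd γ }
  have hGm : Gm = 0 := by
    apply ModularForm.sturm_bound_Gamma0 N Gm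
    intro n hn
    have h0 : (-(w : ℤ) * ((Gamma0 N).index : ℤ)).toNat = 0 := by
      apply Int.toNat_of_nonpos
      have : (0 : ℤ) ≤ (w : ℤ) * ((Gamma0 N).index : ℤ) := by positivity
      linarith
    rw [h0] at hn
    have hn0 : n = 0 := by omega
    subst hn0
    have hc : cuspFunction 1 G 0 = 0 := hG.zero.cuspFunction_apply_zero one_pos
    change (qExpansion 1 G).coeff 0 = 0
    simp [qExpansion_coeff, hc]
  have hG0 : G = 0 := by
    have := congrArg (fun F : ModularForm (Gamma0 N) (-(w : ℤ)) => (⇑F : ℍ → ℂ)) hGm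
    exact this
  have hf0 : (⇑f : ℍ → ℂ) = 0 := eq_zero_of_iter_eq_zero hf (w + 1) hG0
  exact DFunLike.coe_injective hf0

end

end Fermat.Agent.S22
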