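import Fermat.Agent.S22.Lattice

set_option autoImplicit false

open UpperHalfPlane hiding I
open Complex Filter Function CongruenceSubgroup Matrix.SpecialLinearGroup
open scoped Manifold MatrixGroups ModularForm Topology Real
open P2MW.S_ModularForm_heckeT_slash_eq_self_of_mem_Gamma0.ModularForm.HeckeSlashInvariance

namespace Fermat.Agent.S22

noncomputable section

variable {w : ℕ}

theorem RR_add {φ ψ : ℍ → ℂ} {g : GL (Fin 2) ℝ} (h₁ : IsCuspLike φ) (h₂ : IsCuspLike ψ)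
    (h₁g : IsCuspLike (φ ∣[(w : ℤ) + 2] g)) (h₂g : IsCuspLike (ψ ∣[(w : ℤ) + 2] g)) (X Y : ℂ) :
    RR w (φ + ψ) g X Y = RR w φ g X Y + RR w ψ g X Y := by
  simp only [RR, SlashAction.add_slash, EE_add h₁ h₂, EE_add h₁g h₂g]
  ring

theorem isCuspLike_sum {ι : Type*} (s : Finset ι) {φ : ι → ℍ → ℂ}
    (h : ∀ i ∈ s, IsCuspLike (φ i)) : IsCuspLike (∑ i ∈ s, φ i) := by
  classical
  induction s using Finset.induction_on with
  | empty => simpa using IsCuspLike.zero_fun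
  | insert a s ha ih =>
    rw [Finset.sum_insert ha]
    exact (h a (Finset.mem_insert_self a s)).add
      (ih fun i hi => h i (Finset.mem_insert_of_mem hi))

theorem RR_zero (g : GL (Fin 2) ℝ) (X Y : ℂ) : RR w (0 : ℍ → ℂ) g X Y = 0 := by
  have h := RR_add (w := w) (g := g) IsCuspLike.zero_fun IsCuspLike.zero_fun
    (by rw [SlashAction.zero_slash]; exact IsCuspLike.zero_fun)
    (by rw [SlashAction.zero_slash]; exact IsCuspLike.zero_fun) X Y
  rw [add_zero] at h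
  simpa using h

theorem RR_sum {ι : Type*} (s : Finset ι) {φ : ι → ℍ → ℂ} {g : GL (Fin 2) ℝ}
    (h : ∀ i ∈ s, IsCuspLike (φ i)) (hg : ∀ i ∈ s, IsCuspLike (φ i ∣[(w : ℤ) + 2] g))
    (X Y : ℂ) :
    RR w (∑ i ∈ s, φ i) g X Y = ∑ i ∈ s, RR w (φ i) g X Y := by
  classical
  induction s using Finset.induction_on with
  | empty => simpa using RR_zero g X Y
  | insert a s ha ih =>
    rw [Finset.sum_insert ha, Finset.sum_insert ha,
      RR_add (h a (Finset.mem_insert_self a s))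
        (isCuspLike_sum s fun i hi => h i (Finset.mem_insert_of_mem hi))
        (hg a (Finset.mem_insert_self a s))
        (by
          rw [SlashAction.sum_slash]
          exact isCuspLike_sum s fun i hi => hg i (Finset.mem_insert_of_mem hi)),
      ih (fun i hi => h i (Finset.mem_insert_of_mem hi))
        (fun i hi => hg i (Finset.mem_insert_of_mem hi))]

theorem isUT_heckeMatrix {p : ℕ} (hp : p ≠ 0) (j : ℕ) : IsUT (ModularForm.heckeMatrix p j) := by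
  refine ⟨?_, 1, p, one_pos, Nat.pos_of_ne_zero hp, ?_, ?_⟩ <;>
    simp [ModularForm.val_heckeMatrix hp]

theorem isUT_heckeDiagMatrix {p : ℕ} (hp : p ≠ 0) : IsUT (ModularForm.heckeDiagMatrix p) := by
  refine ⟨?_, p, 1, Nat.pos_of_ne_zero hp, one_pos, ?_, ?_⟩ <;>
    simp [ModularForm.val_heckeDiagMatrix hp]

variable {N : ℕ} [NeZero N]

/-- the key step: if `α γ = γ' α'` with `α, α'` upper triangular and `γ' ∈ Γ₀(N)` then
`R_{f|α}(γ)(v) = R_f(γ')(α' v)`. -/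
theorem RR_slash_UT (f : CuspForm (Gamma0 N) ((w : ℤ) + 2)) {α α' : GL (Fin 2) ℝ}
    (hα : IsUT α) (hα' : IsUT α') {γ γ' : SL(2, ℤ)} (hγ' : γ' ∈ Gamma0 N)
    (hmul : α * mapGL ℝ γ = mapGL ℝ γ' * α') (X Y : ℂ) :
    RR w (⇑f ∣[(w : ℤ) + 2] α) (mapGL ℝ γ) X Y =
      RR w ⇑f (mapGL ℝ γ') (α' 0 0 * X + α' 0 1 * Y) (α' 1 0 * X + α' 1 1 * Y) := by
  have hf := isCuspLike_coe f
  have hfγ' : ⇑f ∣[(w : ℤ) + 2] (mapGL ℝ γ') = ⇑f := slash_eq_self f hγ'
  have hfα' : IsCuspLike (⇑f ∣[(w : ℤ) + 2] α') := hf.slash_UT _ hα'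
  have h2 : IsCuspLike (⇑f ∣[(w : ℤ) + 2] (mapGL ℝ γ' * α')) := by
    rw [SlashAction.slash_mul, hfγ']; exact hfα'
  have e1 := RR_mul (w := w) hα.det_pos (det_mapGL_pos γ) hf (hf.slash_UT _ hα)
    (by rw [hmul]; exact h2) X Y
  have e2 := RR_mul (w := w) (det_mapGL_pos γ') hα'.det_pos hf (by rw [hfγ']; exact hf) h2 X Y
  rw [RR_UT hα hf, zero_add] at e1
  rw [hfγ', RR_UT hα' hf, add_zero] at e2
  rw [← e1, hmul, e2]

theorem isCuspLike_slash_UT_slash (f : CuspForm (Gamma0 N) ((w : ℤ) + 2)) {α α' : GL (Fin 2) ℝ}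
    (hα' : IsUT α') {γ γ' : SL(2, ℤ)} (hγ' : γ' ∈ Gamma0 N)
    (hmul : α * mapGL ℝ γ = mapGL ℝ γ' * α') :
    IsCuspLike ((⇑f ∣[(w : ℤ) + 2] α) ∣[(w : ℤ) + 2] (mapGL ℝ γ)) := by
  rw [← SlashAction.slash_mul, hmul, SlashAction.slash_mul, slash_eq_self f hγ']
  exact (isCuspLike_coe f).slash_UT _ hα'

/-- abstract stability statement. -/
theorem perLattice_comp_of_reps {ι : Type*} [Fintype ι] (α : ι → GL (Fin 2) ℝ)
    (hUT : ∀ i, IsUT (α i)) (hint : ∀ i, ∃ b : ℤ, (α i) 0 1 = (b : ℝ))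
    (hrep : ∀ γ ∈ Gamma0 N, ∀ i, ∃ γ' ∈ Gamma0 N, ∃ i', α i * mapGL ℝ γ = mapGL ℝ γ' * α i')
    (t : CuspForm (Gamma0 N) ((w : ℤ) + 2) →ₗ[ℂ] CuspForm (Gamma0 N) ((w : ℤ) + 2))
    (ht : ∀ f, ⇑(t f) = ∑ i, ⇑f ∣[(w : ℤ) + 2] α i)
    (l : CuspForm (Gamma0 N) ((w : ℤ) + 2) →ₗ[ℂ] ℂ) (hl : l ∈ perLattice N w) :
    l ∘ₗ t ∈ perLattice N w := by
  induction hl using Submodule.span_induction with
  | mem l hl =>
    obtain ⟨γ, hγ, x, y, rfl⟩ := hl
    choose γ' hγ' i' hmul using hrep γ hγ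
    choose b hb using hint
    have hkey : (perFun γ (x : ℂ) (y : ℂ) : CuspForm (Gamma0 N) ((w : ℤ) + 2) →ₗ[ℂ] ℂ) ∘ₗ t =
        ∑ i, perFun (γ' i) (((α (i' i)) 0 0 : ℝ) * (x : ℂ) + ((α (i' i)) 0 1 : ℝ) * (y : ℂ))
          (((α (i' i)) 1 0 : ℝ) * (x : ℂ) + ((α (i' i)) 1 1 : ℝ) * (y : ℂ)) := by
      ext f
      simp only [LinearMap.comp_apply, perFun_apply, LinearMap.sum_apply, ht]
      rw [RR_sum Finset.univ (fun i _ => (isCuspLike_coe f).slash_UT _ (hUT i))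
        (fun i _ => isCuspLike_slash_UT_slash f (hUT (i' i)) (hγ' i) (hmul i))]
      exact Finset.sum_congr rfl fun i _ =>
        RR_slash_UT f (hUT i) (hUT (i' i)) (hγ' i) (hmul i) _ _
    rw [hkey]
    refine Submodule.sum_mem _ fun i _ => ?_
    obtain ⟨h10, a, d, -, -, h00, h11⟩ := hUT (i' i)
    have := perFun_mem (N := N) (w := w) (hγ' i) ((a : ℤ) * x + b (i' i) * y) ((d : ℤ) * y)
    convert this using 2
    · rw [h00, hb]; push_cast; ring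
    · rw [h10, h11]; push_cast; ring
  | zero => simp
  | add l₁ l₂ _ _ h₁ h₂ => rw [LinearMap.add_comp]; exact add_mem h₁ h₂
  | smul c l _ h => rw [LinearMap.smul_comp]; exact Submodule.smul_mem _ c h

theorem perLattice_heckeT {p : ℕ} (hp : p.Prime) (hpN : ¬ p ∣ N)
    (l : CuspForm (Gamma0 N) ((w : ℤ) + 2) →ₗ[ℂ] ℂ) (hl : l ∈ perLattice N w) :
    l ∘ₗ CuspForm.heckeTLin ((w : ℤ) + 2) hp hpN ∈ perLattice N w := by
  have : Fact p.Prime := ⟨hp⟩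
  have : NeZero p := ⟨hp.ne_zero⟩
  refine perLattice_comp_of_reps (heckeRep p) ?_ ?_ ?_ _ ?_ l hl
  · intro x
    induction x using OnePoint.rec with
    | infty => exact isUT_heckeDiagMatrix hp.ne_zero
    | coe j => exact isUT_heckeMatrix hp.ne_zero _
  · intro x
    induction x using OnePoint.rec with
    | infty => exact ⟨0, by simp [heckeRep_infty, ModularForm.val_heckeDiagMatrix hp.ne_zero]⟩
    | coe j => exact ⟨j.val, by simp [heckeRep_coe, ModularForm.val_heckeMatrix hp.ne_zero]⟩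
  · intro γ hγ x
    have hcN : (N : ℤ) ∣ γ 1 0 :=
      (ZMod.intCast_zmod_eq_zero_iff_dvd _ _).mp (Gamma0_mem.mp hγ)
    obtain ⟨g', hg', hmul⟩ := heckeRep_mul hpN γ hcN x
    exact ⟨g', Gamma0_mem.mpr ((ZMod.intCast_zmod_eq_zero_iff_dvd _ _).mpr hg'), _, hmul⟩
  · intro f
    rw [CuspForm.coe_heckeTLin_apply, heckeT_eq_sum_onePoint]

theorem perLattice_heckeU {p : ℕ} (hpN : p ∣ N)
    (l : CuspForm (Gamma0 N) ((w : ℤ) + 2) →ₗ[ℂ] ℂ) (hl : l ∈ perLattice N w) :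
    l ∘ₗ CuspForm.heckeULin ((w : ℤ) + 2) hpN ∈ perLattice N w := by
  have hp0 : p ≠ 0 := fun h => NeZero.ne N (Nat.eq_zero_of_zero_dvd (h ▸ hpN))
  have : NeZero p := ⟨hp0⟩
  refine perLattice_comp_of_reps (fun x : ZMod p => ModularForm.heckeMatrix p x.val)
    (fun x => isUT_heckeMatrix hp0 _)
    (fun x => ⟨x.val, by simp [ModularForm.val_heckeMatrix hp0]⟩) ?_ _ ?_ l hl
  · intro γ hγ x
    have hcN : (N : ℤ) ∣ γ 1 0 :=
      (ZMod.intCast_zmod_eq_zero_iff_dvd _ _).mp (Gamma0_mem.mp hγ)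
    have hc : (p : ℤ) ∣ γ 1 0 := (Int.natCast_dvd_natCast.mpr hpN).trans hcN
    obtain ⟨g', hg', hmul⟩ := heckeMatrix_mul_of_dvd γ hc x
    refine ⟨g', ?_, _, hmul⟩
    rw [Gamma0_mem, hg']
    push_cast
    rw [Gamma0_mem.mp hγ, mul_zero]
  · intro f
    rw [CuspForm.coe_heckeULin_apply, heckeU_eq_sum_zmod]

end

end Fermat.Agent.S22
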