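import Mathlib
import Fermat.Prelude.Thm_ModularForm_sturm_bound_Gamma0
import Fermat.Prelude.Thm_CongruenceSubgroup_one_mem_strictPeriods_Gamma0

set_option autoImplicit false

open CongruenceSubgroup

namespace Fermat.Agent.S22

theorem cuspForm_eq_zero_of_weight_le_one {N : ℕ} [NeZero N] {k : ℤ} (hk : k ≤ 1)
    (f : CuspForm (Gamma0 N) k) : f = 0 := by
  rcases lt_or_eq_of_le hk with hk0 | rfl
  · have hF : (ModularFormClass.modularForm f : ModularForm (Gamma0 N) k) = 0 := by
      apply ModularForm.sturm_bound_Gamma0 N
      intro n hn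
      have h0 : (k * ((Gamma0 N).index : ℤ)).toNat = 0 := by
        rw [Int.toNat_eq_zero]
        exact mul_nonpos_of_nonpos_of_nonneg (by omega) (by positivity)
      rw [h0] at hn
      have hn0 : n = 0 := by omega
      subst hn0
      exact CuspFormClass.qExpansion_coeff_zero f one_pos (one_mem_strictPeriods_Gamma0 N)
    ext z
    have := congrArg (fun g : ModularForm (Gamma0 N) k => g z) hF
    simpa using this
  · have hneg : (-1 : GL (Fin 2) ℝ) ∈
        Subgroup.map (Matrix.SpecialLinearGroup.mapGL ℝ) (Gamma0 N) :=
      ⟨-1, by simp [Gamma0_mem], by ext; simp⟩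
    have hF : (ModularFormClass.modularForm f : ModularForm (Gamma0 N) 1) = 0 :=
      ModularForm.eq_zero_of_neg_one_mem hneg odd_one _
    ext z
    have := congrArg (fun g : ModularForm (Gamma0 N) 1 => g z) hF
    simpa using this

end Fermat.Agent.S22
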