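import Fermat.Agent.S22.Prim

set_option autoImplicit false

open UpperHalfPlane hiding I
open Complex Filter Function
open scoped Manifold MatrixGroups ModularForm Topology Real

namespace Fermat.Agent.S22

noncomputable section

variable (w : ℕ)

/-- `∫_{i∞}^z φ(u) (X - u Y)^w du`, written with iterated primitives. -/
def EE (φ : ℍ → ℂ) (z : ℍ) (X Y : ℂ) : ℂ :=
  ∑ m ∈ Finset.range (w + 1),
    (w.descFactorial m : ℂ) * Y ^ m * (X - z * Y) ^ (w - m) * iter (m + 1) φ z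

variable {w}

theorem HasDerivH.congr_fun {Φ φ Φ' φ' : ℍ → ℂ} (h : HasDerivH Φ φ) (h₁ : ∀ z, Φ' z = Φ z)
    (h₂ : ∀ z, φ' z = φ z) : HasDerivH Φ' φ' := by
  have e₁ : Φ' = Φ := funext h₁
  have e₂ : φ' = φ := funext h₂
  rw [e₁, e₂]; exact h

theorem EE_hasDerivH {φ : ℍ → ℂ} (hφ : IsCuspLike φ) (X Y : ℂ) :
    HasDerivH (fun z => EE w φ z X Y) (fun z => φ z * (X - z * Y) ^ w) := by
  have key : ∀ m ∈ Finset.range (w + 1),
      HasDerivH (fun z : ℍ =>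
          (w.descFactorial m : ℂ) * Y ^ m * (X - z * Y) ^ (w - m) * iter (m + 1) φ z)
        (fun z : ℍ => (w.descFactorial m : ℂ) * Y ^ m * (X - z * Y) ^ (w - m) * iter m φ z
          - (w.descFactorial (m + 1) : ℂ) * Y ^ (m + 1) * (X - z * Y) ^ (w - (m + 1))
            * iter (m + 1) φ z) := by
    intro m _
    have h1 : HasDerivH (fun z : ℍ => (w.descFactorial m : ℂ) * Y ^ m * (X - z * Y) ^ (w - m))
        (fun z : ℍ => (w.descFactorial m : ℂ) * Y ^ m *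
          (((w - m : ℕ) : ℂ) * (X - z * Y) ^ (w - m - 1) * (-Y))) := by
      apply HasDerivH.of_complex
        (F := fun u : ℂ => (w.descFactorial m : ℂ) * Y ^ m * (X - u * Y) ^ (w - m))
        (F' := fun u : ℂ => (w.descFactorial m : ℂ) * Y ^ m *
          (((w - m : ℕ) : ℂ) * (X - u * Y) ^ (w - m - 1) * (-Y)))
      intro u
      have h0 : HasDerivAt (fun u : ℂ => X - u * Y) (-Y) u := by
        simpa using ((hasDerivAt_id u).mul_const Y).const_sub X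
      exact (h0.pow (w - m)).const_mul _
    have h2 := h1.mul (iter_succ_hasDerivH hφ m)
    refine h2.congr_fun (fun z => rfl) (fun z => ?_)
    simp only [Pi.add_apply, Pi.mul_apply]
    rw [Nat.descFactorial_succ, Nat.sub_sub]
    push_cast
    ring
  refine (HasDerivH.sum (Finset.range (w + 1)) key).congr_fun (fun z => rfl) (fun z => ?_)
  rw [Finset.sum_range_sub' (fun m => (w.descFactorial m : ℂ) * Y ^ m * (X - z * Y) ^ (w - m)
    * iter m φ z)]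
  rw [Nat.descFactorial_of_lt (Nat.lt_succ_self w)]
  simp [mul_comm]

theorem EE_add {φ ψ : ℍ → ℂ} (h₁ : IsCuspLike φ) (h₂ : IsCuspLike ψ) (z : ℍ) (X Y : ℂ) :
    EE w (φ + ψ) z X Y = EE w φ z X Y + EE w ψ z X Y := by
  simp only [EE, iter_add h₁ h₂, Pi.add_apply, mul_add, Finset.sum_add_distrib]

theorem EE_smul {φ : ℍ → ℂ} (c : ℂ) (h₁ : IsCuspLike φ) (z : ℍ) (X Y : ℂ) :
    EE w (c • φ) z X Y = c * EE w φ z X Y := by
  simp only [EE, iter_smul c h₁, Pi.smul_apply, smul_eq_mul, Finset.mul_sum]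
  refine Finset.sum_congr rfl fun m _ => ?_
  ring

theorem EE_diag (φ : ℍ → ℂ) (z : ℍ) : EE w φ z z 1 = (w.factorial : ℂ) * iter (w + 1) φ z := by
  rw [EE, Finset.sum_range_succ, Finset.sum_eq_zero]
  · simp [Nat.descFactorial_self]
  · intro m hm
    have hm' : w - m ≠ 0 := by
      have := Finset.mem_range.mp hm
      omega
    simp [hm']

theorem EE_homog (φ : ℍ → ℂ) (z : ℍ) (c X Y : ℂ) :
    EE w φ z (c * X) (c * Y) = c ^ w * EE w φ z X Y := by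
  simp only [EE, Finset.mul_sum]
  refine Finset.sum_congr rfl fun m hm => ?_
  have hm' : m ≤ w := Nat.lt_succ_iff.mp (Finset.mem_range.mp hm)
  have e : c ^ w = c ^ m * c ^ (w - m) := by rw [← pow_add, Nat.add_sub_cancel' hm']
  have e2 : c * X - z * (c * Y) = c * (X - z * Y) := by ring
  rw [e, e2, mul_pow, mul_pow]
  ring

theorem EE_poly (φ : ℍ → ℂ) (z : ℍ) (a b c d : ℂ) :
    ∃ p : Polynomial ℂ, ∀ X : ℂ, EE w φ z (a * X + b) (c * X + d) = p.eval X := by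
  refine ⟨∑ m ∈ Finset.range (w + 1),
    Polynomial.C (w.descFactorial m : ℂ) * (Polynomial.C c * Polynomial.X + Polynomial.C d) ^ m *
      ((Polynomial.C a * Polynomial.X + Polynomial.C b) -
        Polynomial.C (z : ℂ) * (Polynomial.C c * Polynomial.X + Polynomial.C d)) ^ (w - m) *
      Polynomial.C (iter (m + 1) φ z), fun X => ?_⟩
  simp [EE, Polynomial.eval_finsetSum]

theorem sub_mul_pow_int_expand (u : ℂ) (x y : ℤ) {n : ℕ} (hn : n ≤ w) :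
    ((x : ℂ) - u * y) ^ n = ∑ i ∈ Finset.range (w + 1),
      (((n.choose i : ℤ) * x ^ (n - i) * (-y) ^ i : ℤ) : ℂ) * u ^ i := by
  have h1 : ((x : ℂ) - u * y) = (-(y : ℂ) * u) + x := by ring
  rw [h1, add_pow]
  have hsub : Finset.range (n + 1) ⊆ Finset.range (w + 1) :=
    Finset.range_subset_range.mpr (Nat.succ_le_succ hn)
  rw [← Finset.sum_subset hsub]
  · refine Finset.sum_congr rfl fun i _ => ?_
    push_cast
    ring
  · intro i _ hi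
    have : n < i := by
      have := Finset.mem_range.not.mp hi
      omega
    simp [Nat.choose_eq_zero_of_lt this]

/-- integrality: for integers `x y`, `EE w φ z x y` is a `ℤ`-combination (with coefficients
independent of `φ`) of the numbers `z ^ i * iter (m + 1) φ z`, `i, m ≤ w`. -/
theorem EE_int (z : ℍ) (x y : ℤ) :
    ∃ c : ℕ → ℕ → ℤ, ∀ φ : ℍ → ℂ, EE w φ z x y =
      ∑ m ∈ Finset.range (w + 1), ∑ i ∈ Finset.range (w + 1),
        (c m i : ℂ) * ((z : ℂ) ^ i * iter (m + 1) φ z) := by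
  refine ⟨fun m i => (w.descFactorial m : ℤ) * y ^ m *
    (((w - m).choose i : ℤ) * x ^ (w - m - i) * (-y) ^ i), fun φ => ?_⟩
  rw [EE]
  refine Finset.sum_congr rfl fun m _ => ?_
  rw [sub_mul_pow_int_expand (w := w) (z : ℂ) x y (Nat.sub_le w m), Finset.mul_sum,
    Finset.sum_mul]
  refine Finset.sum_congr rfl fun i _ => ?_
  push_cast
  ring

variable (w)

/-- the period "polynomial" of `φ` at `g`, evaluated at the vector `(X, Y)`. -/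
def RR (φ : ℍ → ℂ) (g : GL (Fin 2) ℝ) (X Y : ℂ) : ℂ :=
  EE w φ (g • UpperHalfPlane.I) (g 0 0 * X + g 0 1 * Y) (g 1 0 * X + g 1 1 * Y) -
    EE w (φ ∣[(w : ℤ) + 2] g) UpperHalfPlane.I X Y

variable {w}

theorem slash_apply_of_det_pos (φ : ℍ → ℂ) (k : ℤ) {g : GL (Fin 2) ℝ} (hg : 0 < g.val.det)
    (z : ℍ) :
    (φ ∣[k] g) z = φ (g • z) * (g.val.det : ℂ) ^ (k - 1) * denom g z ^ (-k) := by
  have hg' : 0 < g.det.val := by rwa [Matrix.GeneralLinearGroup.val_det_apply]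
  rw [ModularForm.slash_apply, UpperHalfPlane.σ, if_pos hg', ContinuousAlgEquiv.refl_apply,
    Matrix.GeneralLinearGroup.val_det_apply, abs_of_pos hg]

theorem vec_sub_smul_mul {g : GL (Fin 2) ℝ} (hg : 0 < g.val.det) (z : ℍ) (X Y : ℂ) :
    (g 0 0 * X + g 0 1 * Y) - ((g • z : ℍ) : ℂ) * (g 1 0 * X + g 1 1 * Y) =
      (g.val.det : ℂ) * (X - z * Y) / denom g z := by
  have hg' : 0 < g.det.val := by rwa [Matrix.GeneralLinearGroup.val_det_apply]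
  have hd := denom_ne_zero g z
  rw [coe_smul_of_det_pos hg', Matrix.det_fin_two]
  field_simp
  simp only [num, denom]
  push_cast
  ring

theorem RR_spec {φ : ℍ → ℂ} {g : GL (Fin 2) ℝ} (hg : 0 < g.val.det) (hφ : IsCuspLike φ)
    (hφg : IsCuspLike (φ ∣[(w : ℤ) + 2] g)) (X Y : ℂ) (z : ℍ) :
    EE w φ (g • z) (g 0 0 * X + g 0 1 * Y) (g 1 0 * X + g 1 1 * Y) -
      EE w (φ ∣[(w : ℤ) + 2] g) z X Y = RR w φ g X Y := by
  have h1 := (EE_hasDerivH (w := w) hφ (g 0 0 * X + g 0 1 * Y)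
    (g 1 0 * X + g 1 1 * Y)).comp_smul hg
  have h2 := EE_hasDerivH (w := w) hφg X Y
  have h3 : HasDerivH (fun z => EE w φ (g • z) (g 0 0 * X + g 0 1 * Y) (g 1 0 * X + g 1 1 * Y) -
      EE w (φ ∣[(w : ℤ) + 2] g) z X Y) 0 := by
    refine (h1.sub h2).congr_fun (fun z => rfl) (fun z => ?_)
    simp only [Pi.sub_apply, Pi.zero_apply]
    rw [vec_sub_smul_mul hg, slash_apply_of_det_pos φ _ hg]
    have hd := denom_ne_zero g z
    have hdet : (g.val.det : ℂ) ≠ 0 := by exact_mod_cast hg.ne'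
    have e1 : ((w : ℤ) + 2 - 1) = ((w + 1 : ℕ) : ℤ) := by push_cast; ring
    have e2 : (-((w : ℤ) + 2)) = -((w + 2 : ℕ) : ℤ) := by push_cast; ring
    rw [e1, e2, zpow_natCast, zpow_neg, zpow_natCast, div_pow, mul_pow]
    field_simp
    ring
  exact eq_of_hasDerivH_zero h3 z UpperHalfPlane.I

theorem RR_mul {φ : ℍ → ℂ} {g₁ g₂ : GL (Fin 2) ℝ} (hg₁ : 0 < g₁.val.det) (_hg₂ : 0 < g₂.val.det)
    (hφ : IsCuspLike φ) (hφ₁ : IsCuspLike (φ ∣[(w : ℤ) + 2] g₁))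
    (_hφ₂ : IsCuspLike (φ ∣[(w : ℤ) + 2] (g₁ * g₂))) (X Y : ℂ) :
    RR w φ (g₁ * g₂) X Y =
      RR w φ g₁ (g₂ 0 0 * X + g₂ 0 1 * Y) (g₂ 1 0 * X + g₂ 1 1 * Y) +
        RR w (φ ∣[(w : ℤ) + 2] g₁) g₂ X Y := by
  rw [← RR_spec hg₁ hφ hφ₁ _ _ (g₂ • UpperHalfPlane.I)]
  rw [RR, RR, SlashAction.slash_mul, mul_smul]
  have e00 : (((g₁ * g₂ : GL (Fin 2) ℝ) 0 0 : ℝ) : ℂ) = g₁ 0 0 * g₂ 0 0 + g₁ 0 1 * g₂ 1 0 := by
    simp [Matrix.mul_apply, Fin.sum_univ_two]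
  have e01 : (((g₁ * g₂ : GL (Fin 2) ℝ) 0 1 : ℝ) : ℂ) = g₁ 0 0 * g₂ 0 1 + g₁ 0 1 * g₂ 1 1 := by
    simp [Matrix.mul_apply, Fin.sum_univ_two]
  have e10 : (((g₁ * g₂ : GL (Fin 2) ℝ) 1 0 : ℝ) : ℂ) = g₁ 1 0 * g₂ 0 0 + g₁ 1 1 * g₂ 1 0 := by
    simp [Matrix.mul_apply, Fin.sum_univ_two]
  have e11 : (((g₁ * g₂ : GL (Fin 2) ℝ) 1 1 : ℝ) : ℂ) = g₁ 1 0 * g₂ 0 1 + g₁ 1 1 * g₂ 1 1 := by
    simp [Matrix.mul_apply, Fin.sum_univ_two]
  rw [e00, e01, e10, e11]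
  have a1 : (↑(g₁ 0 0) * ↑(g₂ 0 0) + ↑(g₁ 0 1) * ↑(g₂ 1 0)) * X +
      (↑(g₁ 0 0) * ↑(g₂ 0 1) + ↑(g₁ 0 1) * ↑(g₂ 1 1)) * Y =
      (g₁ 0 0 : ℂ) * (g₂ 0 0 * X + g₂ 0 1 * Y) + g₁ 0 1 * (g₂ 1 0 * X + g₂ 1 1 * Y) := by ring
  have a2 : (↑(g₁ 1 0) * ↑(g₂ 0 0) + ↑(g₁ 1 1) * ↑(g₂ 1 0)) * X +
      (↑(g₁ 1 0) * ↑(g₂ 0 1) + ↑(g₁ 1 1) * ↑(g₂ 1 1)) * Y =
      (g₁ 1 0 : ℂ) * (g₂ 0 0 * X + g₂ 0 1 * Y) + g₁ 1 1 * (g₂ 1 0 * X + g₂ 1 1 * Y) := by ring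
  rw [a1, a2]
  ring

theorem RR_UT {φ : ℍ → ℂ} {g : GL (Fin 2) ℝ} (hg : IsUT g) (hφ : IsCuspLike φ) (X Y : ℂ) :
    RR w φ g X Y = 0 := by
  have hdet := hg.det_pos
  obtain ⟨h10, a, d, ha, hd, h00, h11⟩ := hg
  have hg' : IsUT g := ⟨h10, a, d, ha, hd, h00, h11⟩
  have haC : (a : ℂ) ≠ 0 := by exact_mod_cast ha.ne'
  have hdC : (d : ℂ) ≠ 0 := by exact_mod_cast hd.ne'
  have hden : denom g UpperHalfPlane.I = d := by simp [denom, h10, h11]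
  have hdetv : (g.val.det : ℂ) = a * d := by
    rw [Matrix.det_fin_two]
    have e00 : g.val 0 0 = a := h00
    have e10 : g.val 1 0 = 0 := h10
    have e11 : g.val 1 1 = d := h11
    rw [e00, e10, e11]
    push_cast
    ring
  rw [RR, sub_eq_zero, EE, EE]
  refine Finset.sum_congr rfl fun m hm => ?_
  have hm' : m ≤ w := Nat.lt_succ_iff.mp (Finset.mem_range.mp hm)
  rw [vec_sub_smul_mul hdet, iter_slash_UT _ hg' hφ, Pi.smul_apply, smul_eq_mul,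
    slash_apply_of_det_pos _ _ hdet, hden, hdetv, h10, h11, h00]
  have e1 : ((w : ℤ) + 2 - 1) = ((w + 1 : ℕ) : ℤ) := by push_cast; ring
  have e2 : (-((w : ℤ) + 2)) = -((w + 2 : ℕ) : ℤ) := by push_cast; ring
  rw [e1, e2, zpow_natCast, zpow_neg, zpow_natCast]
  obtain ⟨j, rfl⟩ := Nat.exists_eq_add_of_le hm'
  simp only [Nat.add_sub_cancel_left]
  have e3 : (a : ℂ) * d * (X - UpperHalfPlane.I * Y) / d = a * (X - UpperHalfPlane.I * Y) := by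
    field_simp
  rw [e3, mul_pow, div_pow]
  push_cast
  field_simp
  ring

theorem RR_poly (φ : ℍ → ℂ) (g : GL (Fin 2) ℝ) :
    ∃ p : Polynomial ℂ, ∀ X : ℂ, RR w φ g X 1 = p.eval X := by
  obtain ⟨p₁, hp₁⟩ := EE_poly (w := w) φ (g • UpperHalfPlane.I) (g 0 0) (g 0 1) (g 1 0) (g 1 1)
  obtain ⟨p₂, hp₂⟩ := EE_poly (w := w) (φ ∣[(w : ℤ) + 2] g) UpperHalfPlane.I 1 0 0 1
  refine ⟨p₁ - p₂, fun X => ?_⟩
  rw [Polynomial.eval_sub, ← hp₁, ← hp₂, RR]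
  simp

end

end Fermat.Agent.S22
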