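import Fermat.Agent.S22.Eichler
import Fermat.Prelude.Def_CuspForm_HeckeAlgebra
import Fermat.Prelude.Thm_Subgroup_IsArithmetic_exists_nat_mem_strictPeriods_conj

set_option autoImplicit false
set_option linter.unusedSectionVars false

open UpperHalfPlane hiding I
open Complex Filter Function CongruenceSubgroup Matrix.SpecialLinearGroup
open scoped Manifold MatrixGroups ModularForm Topology Real

namespace Fermat.Agent.S22

noncomputable section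

variable {N : ℕ} [NeZero N]

theorem isCuspLike_slash {k : ℤ} (f : CuspForm (Gamma0 N) k) (γ : SL(2, ℤ)) :
    IsCuspLike (⇑f ∣[k] (mapGL ℝ γ)) := by
  refine ⟨(CuspFormClass.holo f).slash k _, ?_, ?_⟩
  · obtain ⟨M, hM, h⟩ := Subgroup.IsArithmetic.exists_nat_mem_strictPeriods_conj
      (Subgroup.map (mapGL ℝ) (Gamma0 N))
    refine ⟨M, hM, fun z => ?_⟩
    have h1 := h γ⁻¹
    rw [map_inv] at h1
    exact SlashInvariantForm.vAdd_apply_of_mem_strictPeriods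
      (CuspForm.translate f (mapGL ℝ γ : GL (Fin 2) ℝ)) z h1
  · exact CuspFormClass.zero_at_infty_slash f γ

theorem isCuspLike_coe {k : ℤ} (f : CuspForm (Gamma0 N) k) : IsCuspLike ⇑f := by
  simpa using isCuspLike_slash f 1

theorem slash_eq_self {k : ℤ} (f : CuspForm (Gamma0 N) k) {γ : SL(2, ℤ)} (hγ : γ ∈ Gamma0 N) :
    ⇑f ∣[k] (mapGL ℝ γ) = ⇑f :=
  SlashInvariantFormClass.slash_action_eq f _ (Subgroup.mem_map_of_mem (mapGL ℝ) hγ)

theorem det_mapGL_pos (γ : SL(2, ℤ)) : 0 < (mapGL ℝ γ : GL (Fin 2) ℝ).val.det := by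
  rw [← Matrix.GeneralLinearGroup.val_det_apply]; simp


variable {w : ℕ}


theorem σ_mapGL (γ : SL(2, ℤ)) (c : ℂ) : σ (mapGL ℝ γ : GL (Fin 2) ℝ) c = c := by
  simp [σ]

theorem RR_add_aux (f g : CuspForm (Gamma0 N) ((w : ℤ) + 2)) (γ : SL(2, ℤ)) (X Y : ℂ) :
    RR w ⇑(f + g) (mapGL ℝ γ) X Y = RR w ⇑f (mapGL ℝ γ) X Y + RR w ⇑g (mapGL ℝ γ) X Y := by
  have h1 : ⇑(f + g) = ⇑f + ⇑g := rfl
  rw [RR, RR, RR, h1, SlashAction.add_slash, EE_add (isCuspLike_coe f) (isCuspLike_coe g),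
    EE_add (isCuspLike_slash f γ) (isCuspLike_slash g γ)]
  ring

theorem RR_smul_aux (c : ℂ) (f : CuspForm (Gamma0 N) ((w : ℤ) + 2)) (γ : SL(2, ℤ)) (X Y : ℂ) :
    RR w ⇑(c • f) (mapGL ℝ γ) X Y = c * RR w ⇑f (mapGL ℝ γ) X Y := by
  have h1 : ⇑(c • f) = c • ⇑f := rfl
  rw [RR, RR, h1, ModularForm.smul_slash, σ_mapGL, EE_smul c (isCuspLike_coe f),
    EE_smul c (isCuspLike_slash f γ)]
  ring

/-- the period functional `f ↦ R_f(γ)(X, Y)`. -/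
def perFun (γ : SL(2, ℤ)) (X Y : ℂ) : CuspForm (Gamma0 N) ((w : ℤ) + 2) →ₗ[ℂ] ℂ where
  toFun f := RR w ⇑f (mapGL ℝ γ) X Y
  map_add' f g := RR_add_aux f g γ X Y
  map_smul' c f := RR_smul_aux c f γ X Y

@[simp] theorem perFun_apply (γ : SL(2, ℤ)) (X Y : ℂ) (f : CuspForm (Gamma0 N) ((w : ℤ) + 2)) :
    perFun γ X Y f = RR w ⇑f (mapGL ℝ γ) X Y := rfl

theorem perFun_mul {γ δ : SL(2, ℤ)} (hγ : γ ∈ Gamma0 N) (X Y : ℂ) :
    (perFun (γ * δ) X Y : CuspForm (Gamma0 N) ((w : ℤ) + 2) →ₗ[ℂ] ℂ) =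
      perFun γ ((δ 0 0 : ℂ) * X + (δ 0 1 : ℂ) * Y) ((δ 1 0 : ℂ) * X + (δ 1 1 : ℂ) * Y) +
        perFun δ X Y := by
  ext f
  have h := RR_mul (w := w) (φ := ⇑f) (det_mapGL_pos γ) (det_mapGL_pos δ) (isCuspLike_coe f)
    (isCuspLike_slash f γ) (by rw [← map_mul]; exact isCuspLike_slash f (γ * δ)) X Y
  rw [slash_eq_self f hγ, ← map_mul] at h
  simpa [perFun] using h



variable (N w) in
def perLattice : Submodule ℤ (CuspForm (Gamma0 N) ((w : ℤ) + 2) →ₗ[ℂ] ℂ) :=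
  Submodule.span ℤ {l | ∃ γ ∈ Gamma0 N, ∃ x y : ℤ, l = perFun γ (x : ℂ) (y : ℂ)}

theorem perFun_mem {γ : SL(2, ℤ)} (hγ : γ ∈ Gamma0 N) (x y : ℤ) :
    (perFun γ (x : ℂ) (y : ℂ) : CuspForm (Gamma0 N) ((w : ℤ) + 2) →ₗ[ℂ] ℂ) ∈ perLattice N w :=
  Submodule.subset_span ⟨γ, hγ, x, y, rfl⟩

/-- the functional `f ↦ u ^ i * (I_{m+1} f)(u)`. -/
def evFun (u : ℍ) (i m : ℕ) : CuspForm (Gamma0 N) ((w : ℤ) + 2) →ₗ[ℂ] ℂ where
  toFun f := (u : ℂ) ^ i * iter (m + 1) ⇑f u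
  map_add' f g := by
    have h1 : ⇑(f + g) = ⇑f + ⇑g := rfl
    rw [h1, iter_add (isCuspLike_coe f) (isCuspLike_coe g), Pi.add_apply, mul_add]
  map_smul' c f := by
    have h1 : ⇑(c • f) = c • ⇑f := rfl
    rw [h1, iter_smul c (isCuspLike_coe f), Pi.smul_apply, smul_eq_mul, RingHom.id_apply,
      smul_eq_mul]
    ring

theorem fg_Gamma0 : (Gamma0 N).FG := by
  have : Group.FG SL(2, ℤ) := by
    rw [Group.fg_iff]
    exact ⟨{ModularGroup.S, ModularGroup.T}, _root_.SpecialLinearGroup.SL2Z_generators,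
      by simp⟩
  exact (Group.fg_iff_subgroup_fg _).mp inferInstance

theorem perFun_one (X Y : ℂ) :
    (perFun 1 X Y : CuspForm (Gamma0 N) ((w : ℤ) + 2) →ₗ[ℂ] ℂ) = 0 := by
  have h := perFun_mul (N := N) (w := w) (γ := 1) (δ := 1) (one_mem _) X Y
  simpa using h

theorem perFun_inv {γ : SL(2, ℤ)} (hγ : γ ∈ Gamma0 N) (X Y : ℂ) :
    (perFun γ⁻¹ ((γ 0 0 : ℂ) * X + (γ 0 1 : ℂ) * Y) ((γ 1 0 : ℂ) * X + (γ 1 1 : ℂ) * Y) :
      CuspForm (Gamma0 N) ((w : ℤ) + 2) →ₗ[ℂ] ℂ) = - perFun γ X Y := by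
  have h := perFun_mul (N := N) (w := w) (γ := γ⁻¹) (δ := γ) (inv_mem hγ) X Y
  rw [inv_mul_cancel, perFun_one] at h
  exact eq_neg_of_add_eq_zero_left h.symm

theorem perFun_mem_span_evFun {γ : SL(2, ℤ)} (hγ : γ ∈ Gamma0 N) (x y : ℤ) :
    (perFun γ (x : ℂ) (y : ℂ) : CuspForm (Gamma0 N) ((w : ℤ) + 2) →ₗ[ℂ] ℂ) ∈
      Submodule.span ℤ {l | ∃ u ∈ ({UpperHalfPlane.I, (mapGL ℝ γ : GL (Fin 2) ℝ) • UpperHalfPlane.I} : Set ℍ),
        ∃ i ∈ Finset.range (w + 1), ∃ m ∈ Finset.range (w + 1), l = evFun u i m} := by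
  obtain ⟨c₁, h₁⟩ := EE_int (w := w) ((mapGL ℝ γ : GL (Fin 2) ℝ) • UpperHalfPlane.I)
    (γ 0 0 * x + γ 0 1 * y) (γ 1 0 * x + γ 1 1 * y)
  obtain ⟨c₂, h₂⟩ := EE_int (w := w) UpperHalfPlane.I x y
  have key : (perFun γ (x : ℂ) (y : ℂ) : CuspForm (Gamma0 N) ((w : ℤ) + 2) →ₗ[ℂ] ℂ) =
      (∑ m ∈ Finset.range (w + 1), ∑ i ∈ Finset.range (w + 1),
        c₁ m i • evFun ((mapGL ℝ γ : GL (Fin 2) ℝ) • UpperHalfPlane.I) i m) -
      ∑ m ∈ Finset.range (w + 1), ∑ i ∈ Finset.range (w + 1),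
        c₂ m i • evFun UpperHalfPlane.I i m := by
    ext f
    have e1 := h₁ ⇑f
    have e2 := h₂ ⇑f
    push_cast at e1
    simp only [perFun, LinearMap.coe_mk, AddHom.coe_mk, RR, slash_eq_self f hγ,
      LinearMap.sub_apply, LinearMap.sum_apply, LinearMap.smul_apply, evFun, zsmul_eq_mul]
    rw [← e2, ← e1]
    simp
  rw [key]
  refine Submodule.sub_mem _ ?_ ?_
  · refine Submodule.sum_mem _ fun m hm => Submodule.sum_mem _ fun i hi =>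
      Submodule.smul_mem _ _ (Submodule.subset_span ⟨_, by simp, i, hi, m, hm, rfl⟩)
  · refine Submodule.sum_mem _ fun m hm => Submodule.sum_mem _ fun i hi =>
      Submodule.smul_mem _ _ (Submodule.subset_span ⟨_, by simp, i, hi, m, hm, rfl⟩)



theorem perLattice_fg : (perLattice N w).FG := by
  classical
  obtain ⟨S, hS⟩ := fg_Gamma0 (N := N)
  -- the finite set of base points
  set U : Finset ℍ := insert UpperHalfPlane.I
    (S.image fun γ => (mapGL ℝ γ : GL (Fin 2) ℝ) • UpperHalfPlane.I) with hU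
  set F : Finset (CuspForm (Gamma0 N) ((w : ℤ) + 2) →ₗ[ℂ] ℂ) :=
    (U ×ˢ (Finset.range (w + 1) ×ˢ Finset.range (w + 1))).image
      fun t => evFun t.1 t.2.1 t.2.2 with hF
  set M₀ : Submodule ℤ (CuspForm (Gamma0 N) ((w : ℤ) + 2) →ₗ[ℂ] ℂ) :=
    Submodule.span ℤ (F : Set _) with hM₀
  have hM₀fg : M₀.FG := ⟨F, rfl⟩
  refine hM₀fg.of_le ?_
  have hgen : ∀ γ ∈ S, ∀ x y : ℤ,
      (perFun γ (x : ℂ) (y : ℂ) : CuspForm (Gamma0 N) ((w : ℤ) + 2) →ₗ[ℂ] ℂ) ∈ M₀ := by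
    intro γ hγ x y
    have hγ' : γ ∈ Gamma0 N := hS ▸ Subgroup.subset_closure hγ
    refine Submodule.span_mono ?_ (perFun_mem_span_evFun hγ' x y)
    rintro l ⟨u, hu, i, hi, m, hm, rfl⟩
    simp only [hF, Finset.coe_image, Set.mem_image, Finset.mem_coe, Finset.mem_product]
    refine ⟨(u, i, m), ⟨?_, hi, hm⟩, rfl⟩
    rcases hu with rfl | rfl
    · simp [hU]
    · simp only [hU, Finset.mem_insert, Finset.mem_image]
      exact Or.inr ⟨γ, hγ, rfl⟩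
  have hall : ∀ γ (hγ : γ ∈ Subgroup.closure (S : Set SL(2, ℤ))), ∀ x y : ℤ,
      (perFun γ (x : ℂ) (y : ℂ) : CuspForm (Gamma0 N) ((w : ℤ) + 2) →ₗ[ℂ] ℂ) ∈ M₀ := by
    intro γ hγ
    induction hγ using Subgroup.closure_induction with
    | mem γ hγ => exact hgen γ hγ
    | one => intro x y; rw [perFun_one]; exact zero_mem _
    | mul γ δ hγ hδ ih₁ ih₂ =>
      intro x y
      rw [perFun_mul (hS ▸ hγ)]
      refine add_mem ?_ (ih₂ x y)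
      have := ih₁ (δ 0 0 * x + δ 0 1 * y) (δ 1 0 * x + δ 1 1 * y)
      push_cast at this
      exact this
    | inv γ hγ ih =>
      intro x y
      have hγ' : γ ∈ Gamma0 N := hS ▸ hγ
      -- write (x, y) = γ (x', y')
      have hdet : γ 0 0 * γ 1 1 - γ 0 1 * γ 1 0 = 1 := by
        have h := γ.det_coe
        rwa [Matrix.det_fin_two] at h
      have h := perFun_inv (N := N) (w := w) hγ' ((γ 1 1 * x - γ 0 1 * y : ℤ) : ℂ)
        ((- γ 1 0 * x + γ 0 0 * y : ℤ) : ℂ)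
      have e1 : (γ 0 0 : ℂ) * ((γ 1 1 * x - γ 0 1 * y : ℤ) : ℂ) +
          (γ 0 1 : ℂ) * ((- γ 1 0 * x + γ 0 0 * y : ℤ) : ℂ) = x := by
        have := congrArg (fun t : ℤ => (t : ℂ)) hdet
        push_cast at this ⊢
        linear_combination (x : ℂ) * this
      have e2 : (γ 1 0 : ℂ) * ((γ 1 1 * x - γ 0 1 * y : ℤ) : ℂ) +
          (γ 1 1 : ℂ) * ((- γ 1 0 * x + γ 0 0 * y : ℤ) : ℂ) = y := by
        have := congrArg (fun t : ℤ => (t : ℂ)) hdet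
        push_cast at this ⊢
        linear_combination (y : ℂ) * this
      rw [e1, e2] at h
      rw [h]
      exact neg_mem (ih _ _)
  refine Submodule.span_le.mpr ?_
  rintro l ⟨γ, hγ, x, y, rfl⟩
  exact hall γ (hS.symm ▸ hγ) x y


end

end Fermat.Agent.S22
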