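import Mathlib

set_option autoImplicit false

open UpperHalfPlane hiding I
open Complex Filter Function
open scoped Manifold MatrixGroups ModularForm Topology Real

namespace Fermat.Agent.S22

noncomputable section

/-- holomorphic on `ℍ`, periodic with a positive integer period, zero at `i∞`. -/
structure IsCuspLike (φ : ℍ → ℂ) : Prop where
  mdiff : MDiff φ
  periodic : ∃ h : ℕ, 0 < h ∧ ∀ z : ℍ, φ ((h : ℝ) +ᵥ z) = φ z
  zero : IsZeroAtImInfty φ

/-- `Φ' = φ` on the upper half plane. -/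
def HasDerivH (Φ φ : ℍ → ℂ) : Prop :=
  ∀ z : ℍ, HasDerivAt (Φ ∘ ofComplex) (φ z) (z : ℂ)

/-! ### calculus of `HasDerivH` -/

theorem HasDerivH.add {Φ φ Ψ ψ : ℍ → ℂ} (h₁ : HasDerivH Φ φ) (h₂ : HasDerivH Ψ ψ) :
    HasDerivH (Φ + Ψ) (φ + ψ) := fun z => (h₁ z).add (h₂ z)

theorem HasDerivH.sub {Φ φ Ψ ψ : ℍ → ℂ} (h₁ : HasDerivH Φ φ) (h₂ : HasDerivH Ψ ψ) :
    HasDerivH (Φ - Ψ) (φ - ψ) := fun z => (h₁ z).sub (h₂ z)

theorem HasDerivH.const_smul {Φ φ : ℍ → ℂ} (c : ℂ) (h₁ : HasDerivH Φ φ) :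
    HasDerivH (c • Φ) (c • φ) := fun z => (h₁ z).const_smul c

theorem HasDerivH.mul {Φ φ Ψ ψ : ℍ → ℂ} (h₁ : HasDerivH Φ φ) (h₂ : HasDerivH Ψ ψ) :
    HasDerivH (Φ * Ψ) (φ * Ψ + Φ * ψ) := fun z => by
  have h := (h₁ z).mul (h₂ z)
  simp only [Function.comp_apply, ofComplex_apply] at h
  exact h

theorem HasDerivH.sum {ι : Type*} (s : Finset ι) {Φ φ : ι → ℍ → ℂ}
    (h : ∀ i ∈ s, HasDerivH (Φ i) (φ i)) :
    HasDerivH (fun z => ∑ i ∈ s, Φ i z) (fun z => ∑ i ∈ s, φ i z) := fun z => by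
  have := HasDerivAt.fun_sum (u := s) (A := fun i => Φ i ∘ ofComplex) (A' := fun i => φ i z)
    (x := (z : ℂ)) (fun i hi => h i hi z)
  exact this

/-- restriction to `ℍ` of an entire function. -/
theorem HasDerivH.of_complex {F F' : ℂ → ℂ} (h : ∀ z : ℂ, HasDerivAt F (F' z) z) :
    HasDerivH (fun z : ℍ => F z) (fun z : ℍ => F' z) := fun z => by
  refine (h z).congr_of_eventuallyEq ?_
  filter_upwards [eventuallyEq_coe_comp_ofComplex z.im_pos] with w hw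
  simp only [Function.comp_apply, id] at hw ⊢
  rw [hw]

theorem HasDerivH.mdiff {Φ φ : ℍ → ℂ} (h : HasDerivH Φ φ) : MDiff Φ := by
  rw [UpperHalfPlane.mdifferentiable_iff]
  intro z hz
  have := h ⟨z, hz⟩
  exact this.differentiableAt.differentiableWithinAt

/-- chain rule for Moebius transformations. -/
theorem HasDerivH.comp_smul {Φ φ : ℍ → ℂ} (h : HasDerivH Φ φ) {g : GL (Fin 2) ℝ}
    (hg : 0 < g.val.det) :
    HasDerivH (fun z => Φ (g • z)) (fun z => φ (g • z) * ((g.val.det : ℂ) / denom g z ^ 2)) := by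
  intro z
  have hg' : 0 < (Matrix.GeneralLinearGroup.det g : ℝˣ).val := by
    simpa [Matrix.GeneralLinearGroup.val_det_apply] using hg
  have hmob : HasDerivAt (fun w : ℂ => num g w / denom g w)
      ((g.val.det : ℂ) / denom g z ^ 2) (z : ℂ) := by
    have hn : HasDerivAt (fun w : ℂ => num g w) ((g 0 0 : ℝ) : ℂ) (z : ℂ) := by
      simp only [num]
      simpa using ((hasDerivAt_id (z : ℂ)).const_mul ((g 0 0 : ℝ) : ℂ)).add_const ((g 0 1 : ℝ) : ℂ)
    have hd : HasDerivAt (fun w : ℂ => denom g w) ((g 1 0 : ℝ) : ℂ) (z : ℂ) := by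
      simp only [denom]
      simpa using ((hasDerivAt_id (z : ℂ)).const_mul ((g 1 0 : ℝ) : ℂ)).add_const ((g 1 1 : ℝ) : ℂ)
    have := hn.div hd (denom_ne_zero g z)
    have e : ((g.val.det : ℝ) : ℂ) / denom g z ^ 2 =
        (((g 0 0 : ℝ) : ℂ) * denom g ↑z - num g ↑z * ((g 1 0 : ℝ) : ℂ)) / denom g ↑z ^ 2 := by
      congr 1
      rw [Matrix.det_fin_two]
      simp only [num, denom]
      push_cast
      ring
    rw [e]
    exact this
  have hz : ((g • z : ℍ) : ℂ) = num g z / denom g z := coe_smul_of_det_pos hg' z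
  have h1 := h (g • z)
  rw [hz] at h1
  have h2 := h1.comp (z : ℂ) hmob
  refine h2.congr_of_eventuallyEq ?_
  filter_upwards [isOpen_upperHalfPlaneSet.mem_nhds z.im_pos] with w hw
  simp only [Function.comp_apply]
  rw [ofComplex_apply_of_im_pos hw, ← coe_smul_of_det_pos hg' ⟨w, hw⟩, ofComplex_apply]

theorem eq_of_hasDerivH_zero {G : ℍ → ℂ} (hG : HasDerivH G 0) (z z' : ℍ) : G z = G z' := by
  have hd : DifferentiableOn ℂ (G ∘ ofComplex) upperHalfPlaneSet := fun x hx =>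
    (hG ⟨x, hx⟩).differentiableAt.differentiableWithinAt
  have h0 : upperHalfPlaneSet.EqOn (fderiv ℂ (G ∘ ofComplex)) 0 := fun x hx => by
    have := (hG ⟨x, hx⟩).hasFDerivAt.fderiv
    rw [this]
    ext
    simp
  have := isOpen_upperHalfPlaneSet.is_const_of_fderiv_eq_zero
    (Complex.isConnected_of_upperHalfPlane subset_rfl (by grind)).isPreconnected hd h0
    z.im_pos z'.im_pos
  simpa using this

/-! ### closure properties of `IsCuspLike` -/

theorem IsCuspLike.zero_fun : IsCuspLike (0 : ℍ → ℂ) := by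
  refine ⟨?_, ⟨1, one_pos, fun _ => rfl⟩, ?_⟩
  · exact mdifferentiable_const
  · exact tendsto_const_nhds

theorem IsCuspLike.add {φ ψ : ℍ → ℂ} (h₁ : IsCuspLike φ) (h₂ : IsCuspLike ψ) :
    IsCuspLike (φ + ψ) := by
  obtain ⟨a, ha, hpa⟩ := h₁.periodic
  obtain ⟨b, hb, hpb⟩ := h₂.periodic
  have key : ∀ (χ : ℍ → ℂ) (c : ℕ), (∀ z : ℍ, χ ((c : ℝ) +ᵥ z) = χ z) →
      ∀ (n : ℕ) (z : ℍ), χ (((c * n : ℕ) : ℝ) +ᵥ z) = χ z := by
    intro χ c hc n
    induction n with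
    | zero => intro z; simp
    | succ n ih =>
      intro z
      have : (((c * (n + 1) : ℕ) : ℝ) +ᵥ z) = ((c : ℝ) +ᵥ (((c * n : ℕ) : ℝ) +ᵥ z)) := by
        rw [vadd_vadd]; congr 1; push_cast; ring
      rw [this, hc, ih]
  refine ⟨h₁.mdiff.add h₂.mdiff, ⟨a * b, Nat.mul_pos ha hb, fun z => ?_⟩, ?_⟩
  · simp only [Pi.add_apply]
    rw [key φ a hpa b z, mul_comm a b, key ψ b hpb a z]
  · exact h₁.zero.add h₂.zero

theorem IsCuspLike.const_smul {φ : ℍ → ℂ} (c : ℂ) (h₁ : IsCuspLike φ) : IsCuspLike (c • φ) := by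
  obtain ⟨a, ha, hpa⟩ := h₁.periodic
  refine ⟨h₁.mdiff.const_smul c, ⟨a, ha, fun z => ?_⟩, ?_⟩
  · simp only [Pi.smul_apply, hpa]
  · have := Tendsto.const_smul h₁.zero c
    rw [smul_zero] at this
    exact this

/-- upper triangular, positive integer diagonal. -/
def IsUT (g : GL (Fin 2) ℝ) : Prop :=
  g 1 0 = 0 ∧ ∃ a d : ℕ, 0 < a ∧ 0 < d ∧ g 0 0 = a ∧ g 1 1 = d

theorem IsUT.det_pos {g : GL (Fin 2) ℝ} (hg : IsUT g) : 0 < g.val.det := by
  obtain ⟨h10, a, d, ha, hd, h00, h11⟩ := hg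
  rw [Matrix.det_fin_two, h10, h00, h11, mul_zero, sub_zero]
  positivity

theorem periodic_nat_mul {χ : ℍ → ℂ} {c : ℕ} (hc : ∀ z : ℍ, χ ((c : ℝ) +ᵥ z) = χ z)
    (n : ℕ) (z : ℍ) : χ (((c * n : ℕ) : ℝ) +ᵥ z) = χ z := by
  induction n generalizing z with
  | zero => simp
  | succ n ih =>
    have : (((c * (n + 1) : ℕ) : ℝ) +ᵥ z) = ((c : ℝ) +ᵥ (((c * n : ℕ) : ℝ) +ᵥ z)) := by
      rw [vadd_vadd]; congr 1; push_cast; ring
    rw [this, hc, ih]

theorem IsUT.denom_eq {g : GL (Fin 2) ℝ} (hg : IsUT g) (z : ℂ) : denom g z = (g 1 1 : ℂ) := by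
  simp [denom, hg.1]

theorem IsUT.slash_apply {g : GL (Fin 2) ℝ} (hg : IsUT g) (k : ℤ) (φ : ℍ → ℂ) (z : ℍ) :
    (φ ∣[k] g) z = (((g.val.det : ℝ) : ℂ) ^ (k - 1) * (g 1 1 : ℂ) ^ (-k)) * φ (g • z) := by
  have hpos := hg.det_pos
  have hpos' : 0 < (Matrix.GeneralLinearGroup.det g : ℝˣ).val := by
    simpa [Matrix.GeneralLinearGroup.val_det_apply] using hpos
  rw [ModularForm.slash_apply, hg.denom_eq, UpperHalfPlane.σ, if_pos hpos']
  simp only [ContinuousAlgEquiv.refl_apply, Matrix.GeneralLinearGroup.val_det_apply,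
    abs_of_pos hpos]
  ring

theorem IsUT.slash_eq {g : GL (Fin 2) ℝ} (hg : IsUT g) (k : ℤ) (φ : ℍ → ℂ) :
    (φ ∣[k] g) = (((g.val.det : ℝ) : ℂ) ^ (k - 1) * (g 1 1 : ℂ) ^ (-k)) • fun z => φ (g • z) := by
  funext z
  rw [hg.slash_apply]; rfl

theorem IsUT.smul_vadd {g : GL (Fin 2) ℝ} (hg : IsUT g) (t : ℝ) (z : ℍ) :
    g • ((g 1 1 * t) +ᵥ z) = (g 0 0 * t) +ᵥ (g • z) := by
  have hpos' : 0 < (Matrix.GeneralLinearGroup.det g : ℝˣ).val := by
    simpa [Matrix.GeneralLinearGroup.val_det_apply] using hg.det_pos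
  obtain ⟨h10, a, d, ha, hd, h00, h11⟩ := hg
  have hd' : (d : ℂ) ≠ 0 := by exact_mod_cast hd.ne'
  apply UpperHalfPlane.ext
  rw [coe_smul_of_det_pos hpos', coe_vadd, coe_vadd, coe_smul_of_det_pos hpos']
  simp only [num, denom, h10, h00, h11]
  push_cast
  rw [zero_mul, zero_mul, zero_add]
  generalize ((g 0 1 : ℝ) : ℂ) = b
  field_simp
  ring

theorem IsCuspLike.comp_UT {φ : ℍ → ℂ} {g : GL (Fin 2) ℝ} (hg : IsUT g)
    (h : IsCuspLike φ) : IsCuspLike (fun z => φ (g • z)) := by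
  have hpos' : 0 < (Matrix.GeneralLinearGroup.det g : ℝˣ).val := by
    simpa [Matrix.GeneralLinearGroup.val_det_apply] using hg.det_pos
  obtain ⟨p, hp, hper⟩ := h.periodic
  refine ⟨h.mdiff.comp (mdifferentiable_smul hpos'), ?_, h.zero.comp (tendsto_smul_atImInfty hg.1)⟩
  obtain ⟨h10, a, d, ha, hd, h00, h11⟩ := id hg
  refine ⟨d * p, Nat.mul_pos hd hp, fun z => ?_⟩
  have e1 : (((d * p : ℕ) : ℝ)) = g 1 1 * (p : ℝ) := by rw [h11]; push_cast; ring
  have e2 : g 0 0 * (p : ℝ) = ((p * a : ℕ) : ℝ) := by rw [h00]; push_cast; ring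
  rw [e1, hg.smul_vadd, e2, periodic_nat_mul hper]

theorem IsCuspLike.slash_UT {φ : ℍ → ℂ} (k : ℤ) {g : GL (Fin 2) ℝ} (hg : IsUT g)
    (h : IsCuspLike φ) : IsCuspLike (φ ∣[k] g) := by
  rw [hg.slash_eq]
  exact (h.comp_UT hg).const_smul _

/-! ### primitives -/

theorem periodic_comp_ofComplex_of {φ : ℍ → ℂ} {h : ℝ} (hper : ∀ z : ℍ, φ (h +ᵥ z) = φ z) :
    Periodic (φ ∘ ofComplex) (h : ℂ) := by
  intro w
  by_cases! hw : 0 < im w
  · have : 0 < im (w + h) := by simp [hw]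
    simp only [comp_apply, ofComplex_apply_of_im_pos this, ofComplex_apply_of_im_pos hw]
    rw [← hper ⟨w, hw⟩]
    congr 1
    ext
    simp [add_comm]
  · have : im (w + h) ≤ 0 := by simpa using hw
    simp [ofComplex_apply_of_im_nonpos this, ofComplex_apply_of_im_nonpos hw]

theorem exists_prim {φ : ℍ → ℂ} (hφ : IsCuspLike φ) :
    ∃ Φ : ℍ → ℂ, IsCuspLike Φ ∧ HasDerivH Φ φ := by
  obtain ⟨h, hh, hper⟩ := hφ.periodic
  have hh' : (0 : ℝ) < (h : ℝ) := by exact_mod_cast hh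
  have hP : Periodic (φ ∘ ofComplex) ((h : ℝ) : ℂ) := periodic_comp_ofComplex_of hper
  set G := cuspFunction (h : ℝ) φ with hG
  have hGd : DifferentiableOn ℂ G (Metric.ball 0 1) :=
    differentiableOn_cuspFunction_ball hh' hP hφ.mdiff hφ.zero.isBoundedAtImInfty
  have hG0 : G 0 = 0 := hφ.zero.cuspFunction_apply_zero hh'
  have hGs : DifferentiableOn ℂ (dslope G 0) (Metric.ball 0 1) :=
    (differentiableOn_dslope (Metric.ball_mem_nhds 0 one_pos)).mpr hGd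
  obtain ⟨H, hH0, hH⟩ := hGs.isExactOn_ball.with_val_at 0 0
  set c : ℂ := (h : ℂ) / (2 * π * I) with hc
  have hq1 : ∀ z : ℍ, Periodic.qParam (h : ℝ) z ∈ Metric.ball (0 : ℂ) 1 := fun z => by
    simpa using Periodic.norm_qParam_lt_one hh' z.im_pos
  have hd : HasDerivH (fun z => c * H (Periodic.qParam (h : ℝ) z)) φ := by
    intro z
    have hq : HasDerivAt (Periodic.qParam (h : ℝ))
        (Periodic.qParam (h : ℝ) z * (2 * π * I / (h : ℝ))) (z : ℂ) := by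
      simpa only [id_eq, mul_one] using!
        (((hasDerivAt_id (z : ℂ)).const_mul (2 * π * I)).div_const ((h : ℝ) : ℂ)).cexp
    have h1 := ((hH _ (hq1 z)).comp (z : ℂ) hq).const_mul c
    have hne : Periodic.qParam (h : ℝ) z ≠ 0 := Periodic.qParam_ne_zero _
    have hval : c * (dslope G 0 (Periodic.qParam (h : ℝ) z) *
        (Periodic.qParam (h : ℝ) z * (2 * π * I / (h : ℝ)))) = φ z := by
      rw [dslope_of_ne _ hne, slope_def_field, hG0, sub_zero, sub_zero, hG,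
        eq_cuspFunction z hh'.ne' hP, hc]
      have : (h : ℂ) ≠ 0 := by exact_mod_cast hh.ne'
      have h2 : (2 * π * I : ℂ) ≠ 0 := two_pi_I_ne_zero
      push_cast
      field_simp
    rw [hval] at h1
    refine h1.congr_of_eventuallyEq ?_
    filter_upwards [isOpen_upperHalfPlaneSet.mem_nhds z.im_pos] with u hu
    simp [ofComplex_apply_of_im_pos hu]
  refine ⟨fun z => c * H (Periodic.qParam (h : ℝ) z), ⟨hd.mdiff, ⟨h, hh, fun z => ?_⟩, ?_⟩, hd⟩
  · have : Periodic.qParam (h : ℝ) (((h : ℝ) +ᵥ z : ℍ) : ℂ) = Periodic.qParam (h : ℝ) z := by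
      have hne : ((h : ℝ) : ℂ) ≠ 0 := by exact_mod_cast hh.ne'
      rw [coe_vadd, Periodic.qParam, Periodic.qParam, mul_add, add_div,
        mul_div_cancel_right₀ _ hne, Complex.exp_add, Complex.exp_two_pi_mul_I, one_mul]
    simp only [this]
  · have hHc : ContinuousAt H 0 := (hH 0 (Metric.mem_ball_self one_pos)).continuousAt
    have h1 : Tendsto (fun z : ℍ => H (Periodic.qParam (h : ℝ) z)) atImInfty (𝓝 (H 0)) :=
      hHc.tendsto.comp (qParam_tendsto_atImInfty hh')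
    have h2 := h1.const_mul c
    rw [hH0, mul_zero] at h2
    exact h2


theorem prim_unique' {φ Φ₁ Φ₂ : ℍ → ℂ} (h₁ : IsZeroAtImInfty Φ₁) (h₂ : IsZeroAtImInfty Φ₂)
    (d₁ : HasDerivH Φ₁ φ) (d₂ : HasDerivH Φ₂ φ) : Φ₁ = Φ₂ := by
  have hd : HasDerivH (Φ₁ - Φ₂) 0 := by simpa using d₁.sub d₂
  have hz : Tendsto (Φ₁ - Φ₂) atImInfty (𝓝 0) := by
    have := Tendsto.sub h₁ h₂
    rw [sub_zero] at this
    exact this
  ext z
  have hc : (Φ₁ - Φ₂) = fun _ => (Φ₁ - Φ₂) z := funext fun z' => eq_of_hasDerivH_zero hd z' z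
  rw [hc] at hz
  have := tendsto_nhds_unique hz tendsto_const_nhds
  exact sub_eq_zero.mp this.symm

open Classical in
/-- the primitive vanishing at `i∞`. -/
def prim (φ : ℍ → ℂ) : ℍ → ℂ := if h : IsCuspLike φ then (exists_prim h).choose else 0

theorem prim_isCuspLike {φ : ℍ → ℂ} (h : IsCuspLike φ) : IsCuspLike (prim φ) := by
  rw [prim, dif_pos h]; exact (exists_prim h).choose_spec.1

theorem prim_hasDerivH {φ : ℍ → ℂ} (h : IsCuspLike φ) : HasDerivH (prim φ) φ := by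
  rw [prim, dif_pos h]; exact (exists_prim h).choose_spec.2

theorem prim_unique {φ Φ : ℍ → ℂ} (h : IsCuspLike φ) (hΦ : IsZeroAtImInfty Φ)
    (d : HasDerivH Φ φ) : prim φ = Φ :=
  prim_unique' (prim_isCuspLike h).zero hΦ (prim_hasDerivH h) d

theorem prim_add {φ ψ : ℍ → ℂ} (h₁ : IsCuspLike φ) (h₂ : IsCuspLike ψ) :
    prim (φ + ψ) = prim φ + prim ψ :=
  prim_unique (h₁.add h₂) ((prim_isCuspLike h₁).add (prim_isCuspLike h₂)).zero
    ((prim_hasDerivH h₁).add (prim_hasDerivH h₂))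

theorem prim_smul {φ : ℍ → ℂ} (c : ℂ) (h₁ : IsCuspLike φ) : prim (c • φ) = c • prim φ :=
  prim_unique (h₁.const_smul c) ((prim_isCuspLike h₁).const_smul c).zero
    ((prim_hasDerivH h₁).const_smul c)

theorem prim_slash_UT {φ : ℍ → ℂ} (k : ℤ) {g : GL (Fin 2) ℝ} (hg : IsUT g) (h : IsCuspLike φ) :
    prim (φ ∣[k] g) = ((g 1 1 : ℂ) / (g 0 0 : ℂ)) • (prim φ ∣[k] g) := by
  refine prim_unique (h.slash_UT k hg) (((prim_isCuspLike h).slash_UT k hg).const_smul _).zero ?_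
  rw [hg.slash_eq, hg.slash_eq]
  have h1 := (((prim_hasDerivH h).comp_smul hg.det_pos).const_smul
    (((g.val.det : ℝ) : ℂ) ^ (k - 1) * (g 1 1 : ℂ) ^ (-k))).const_smul ((g 1 1 : ℂ) / (g 0 0 : ℂ))
  convert h1 using 1
  funext z
  obtain ⟨h10, a, d, ha, hd, h00, h11⟩ := id hg
  have hd' : (d : ℂ) ≠ 0 := by exact_mod_cast hd.ne'
  have ha' : (a : ℂ) ≠ 0 := by exact_mod_cast ha.ne'
  simp only [Pi.smul_apply, smul_eq_mul, hg.denom_eq]
  rw [Matrix.det_fin_two, h10, h00, h11, mul_zero, sub_zero]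
  push_cast
  field_simp

/-- iterated primitive. -/
def iter : ℕ → (ℍ → ℂ) → (ℍ → ℂ)
  | 0, φ => φ
  | m + 1, φ => prim (iter m φ)

@[simp] theorem iter_zero (φ : ℍ → ℂ) : iter 0 φ = φ := rfl

theorem iter_succ (m : ℕ) (φ : ℍ → ℂ) : iter (m + 1) φ = prim (iter m φ) := rfl

theorem iter_isCuspLike {φ : ℍ → ℂ} (h : IsCuspLike φ) (m : ℕ) : IsCuspLike (iter m φ) := by
  induction m with
  | zero => exact h
  | succ m ih => exact prim_isCuspLike ih

theorem iter_succ_hasDerivH {φ : ℍ → ℂ} (h : IsCuspLike φ) (m : ℕ) :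
    HasDerivH (iter (m + 1) φ) (iter m φ) :=
  prim_hasDerivH (iter_isCuspLike h m)

theorem iter_add {φ ψ : ℍ → ℂ} (h₁ : IsCuspLike φ) (h₂ : IsCuspLike ψ) (m : ℕ) :
    iter m (φ + ψ) = iter m φ + iter m ψ := by
  induction m with
  | zero => rfl
  | succ m ih => rw [iter_succ, ih, prim_add (iter_isCuspLike h₁ m) (iter_isCuspLike h₂ m)]; rfl

theorem iter_smul {φ : ℍ → ℂ} (c : ℂ) (h₁ : IsCuspLike φ) (m : ℕ) :
    iter m (c • φ) = c • iter m φ := by
  induction m with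
  | zero => rfl
  | succ m ih => rw [iter_succ, ih, prim_smul c (iter_isCuspLike h₁ m)]; rfl

theorem iter_slash_UT {φ : ℍ → ℂ} (k : ℤ) {g : GL (Fin 2) ℝ} (hg : IsUT g) (h : IsCuspLike φ)
    (m : ℕ) :
    iter m (φ ∣[k] g) = ((g 1 1 : ℂ) / (g 0 0 : ℂ)) ^ m • (iter m φ ∣[k] g) := by
  induction m with
  | zero => simp
  | succ m ih =>
    rw [iter_succ, ih, prim_smul _ ((iter_isCuspLike h m).slash_UT k hg),
      prim_slash_UT k hg (iter_isCuspLike h m), smul_smul, pow_succ, iter_succ]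

end

end Fermat.Agent.S22
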